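/-
ES / Glue : pure algebra.  Integral matrices acting on a lattice `ℤ^r`, complex operators on a
space `W` embedded in `ℂ^r`; the algebra of compatible pairs.
-/
import Mathlib
import Fermat.Agent.S31.Faith

set_option autoImplicit false

namespace Fermat.Agent.ES.Glue

open Matrix Polynomial

variable {r : ℕ} {W : Type*} [AddCommGroup W] [Module ℂ W] (P : W →ₗ[ℂ] (Fin r → ℂ))

/-- The algebra of pairs (integral matrix, operator on `W`) which are intertwined by `P`. -/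
def Rel : Subalgebra ℤ (Matrix (Fin r) (Fin r) ℤ × Module.End ℂ W) where
  carrier := {x | ∀ w, P (x.2 w) = (Int.castRingHom ℂ).mapMatrix x.1 *ᵥ P w}
  mul_mem' := by
    intro x y hx hy w
    rw [Prod.snd_mul, Prod.fst_mul, Module.End.mul_apply, hx, hy, map_mul, mulVec_mulVec]
  add_mem' := by
    intro x y hx hy w
    rw [Prod.snd_add, Prod.fst_add, LinearMap.add_apply, map_add, hx, hy, map_add, add_mulVec]
  algebraMap_mem' := by
    intro n w
    rw [Prod.algebraMap_apply]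
    simp only [Module.algebraMap_end_apply, map_zsmul]
    rw [Algebra.algebraMap_eq_smul_one, map_zsmul, map_one, smul_mulVec, one_mulVec]

theorem mem_Rel {x : Matrix (Fin r) (Fin r) ℤ × Module.End ℂ W} :
    x ∈ Rel P ↔ ∀ w, P (x.2 w) = (Int.castRingHom ℂ).mapMatrix x.1 *ᵥ P w := Iff.rfl

variable {P}

/-- the second component is determined by the first. -/
theorem Rel.snd_eq_zero (hP : Function.Injective P)
    {x : Matrix (Fin r) (Fin r) ℤ × Module.End ℂ W} (hx : x ∈ Rel P) (h : x.1 = 0) : x.2 = 0 := by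
  refine LinearMap.ext fun w => hP ?_
  rw [hx w, h, map_zero, zero_mulVec, LinearMap.zero_apply, map_zero]

/-- **Integrality.** -/
theorem Rel.isIntegral (hP : Function.Injective P) {m : ℕ} (hm : m ≠ 0)
    {A' : Matrix (Fin r) (Fin r) ℤ} {t : Module.End ℂ W} (h : (m • A', t) ∈ Rel P) :
    ∃ Q : Module.End ℂ W, IsIntegral ℤ Q ∧ t = (m : ℤ) • Q := by
  have hm' : (m : ℂ) ≠ 0 := Nat.cast_ne_zero.mpr hm
  refine ⟨(m : ℂ)⁻¹ • t, ?_, ?_⟩
  · have hQ : (A', (m : ℂ)⁻¹ • t) ∈ Rel P := by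
      intro w
      have h1 := h w
      simp only [map_nsmul, smul_mulVec] at h1
      simp only [LinearMap.smul_apply, map_smul]
      rw [h1, ← Nat.cast_smul_eq_nsmul ℂ, smul_smul, inv_mul_cancel₀ hm', one_smul]
    refine ⟨A'.charpoly, A'.charpoly_monic, ?_⟩
    set y : Rel P := aeval ((⟨(A', (m : ℂ)⁻¹ • t), hQ⟩ : Rel P)) A'.charpoly with hy
    have h3 : (y : Matrix (Fin r) (Fin r) ℤ × Module.End ℂ W).1 = 0 := by
      have := aeval_algHom_apply ((AlgHom.fst ℤ _ _).comp (Rel P).val)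
        (⟨(A', (m : ℂ)⁻¹ • t), hQ⟩ : Rel P) A'.charpoly
      rw [← hy] at this
      have e : ((AlgHom.fst ℤ _ _).comp (Rel P).val) y = (y : _ × Module.End ℂ W).1 := rfl
      rw [← e, ← this]
      exact A'.aeval_self_charpoly
    have h4 : (y : Matrix (Fin r) (Fin r) ℤ × Module.End ℂ W).2
        = aeval ((m : ℂ)⁻¹ • t) A'.charpoly := by
      have := aeval_algHom_apply ((AlgHom.snd ℤ _ _).comp (Rel P).val)
        (⟨(A', (m : ℂ)⁻¹ • t), hQ⟩ : Rel P) A'.charpoly
      rw [← hy] at this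
      exact this.symm
    rw [← aeval_def, ← h4]
    exact Rel.snd_eq_zero hP y.2 h3
  · rw [← Int.cast_smul_eq_zsmul ℂ, smul_smul, Int.cast_natCast, mul_inv_cancel₀ hm', one_smul]

/-- **Artin-Rees** for compatible pairs whose second component lies in a subalgebra `𝕋`. -/
theorem Rel.exists_shift (hP : Function.Injective P) (𝕋 : Subalgebra ℤ (Module.End ℂ W)) (p : ℕ) :
    ∃ c : ℕ, ∀ (n : ℕ) (A' : Matrix (Fin r) (Fin r) ℤ) (t : 𝕋),
      ((p ^ n : ℕ) • A', (t : Module.End ℂ W)) ∈ Rel P → ∃ z : 𝕋, t = (p ^ (n - c) : ℕ) • z := by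
  let 𝔹 : AddSubgroup (Matrix (Fin r) (Fin r) ℤ × 𝕋) :=
    { carrier := {x | (x.1, (x.2 : Module.End ℂ W)) ∈ Rel P}
      add_mem' := fun {x y} hx hy => (Rel P).add_mem hx hy
      zero_mem' := (Rel P).zero_mem
      neg_mem' := fun {x} hx => (Rel P).neg_mem hx }
  let π : 𝔹 →+ Matrix (Fin r) (Fin r) ℤ := (AddMonoidHom.fst _ _).comp 𝔹.subtype
  have hπ : Function.Injective π := by
    rw [injective_iff_map_eq_zero]
    intro x hx
    have h1 : ((x : Matrix (Fin r) (Fin r) ℤ × 𝕋).2 : Module.End ℂ W) = 0 :=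
      Rel.snd_eq_zero hP (x := ((x : Matrix (Fin r) (Fin r) ℤ × 𝕋).1,
        ((x : Matrix (Fin r) (Fin r) ℤ × 𝕋).2 : Module.End ℂ W))) x.2 hx
    apply Subtype.ext
    exact Prod.ext hx (Subtype.ext h1)
  obtain ⟨c, hc⟩ := Fermat.Agent.S31.exists_shift π hπ p
  refine ⟨c, fun n A' t h => ?_⟩
  obtain ⟨z, hz⟩ := hc n ⟨((p ^ n : ℕ) • A', t), h⟩ ⟨A', rfl⟩
  refine ⟨(z : Matrix (Fin r) (Fin r) ℤ × 𝕋).2, ?_⟩
  exact congrArg (fun x : 𝔹 => (x : Matrix (Fin r) (Fin r) ℤ × 𝕋).2) hz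

/-! ### noncommutative polynomials -/

theorem lift_mem_Rel {I : Type*} (A : I → Matrix (Fin r) (Fin r) ℤ) (t : I → Module.End ℂ W)
    (h : ∀ i, (A i, t i) ∈ Rel P) (F : FreeAlgebra ℤ I) :
    (FreeAlgebra.lift ℤ A F, FreeAlgebra.lift ℤ t F) ∈ Rel P := by
  let g : I → Rel P := fun i => ⟨(A i, t i), h i⟩
  have h1 : ((AlgHom.fst ℤ _ _).comp (Rel P).val).comp (FreeAlgebra.lift ℤ g)
      = FreeAlgebra.lift ℤ A := by
    apply FreeAlgebra.hom_ext
    funext i
    simp [g]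
  have h2 : ((AlgHom.snd ℤ _ _).comp (Rel P).val).comp (FreeAlgebra.lift ℤ g)
      = FreeAlgebra.lift ℤ t := by
    apply FreeAlgebra.hom_ext
    funext i
    simp [g]
  rw [← h1, ← h2]
  exact (FreeAlgebra.lift ℤ g F).2

theorem lift_intertwine {I M : Type*} [AddCommGroup M] (ι : (Fin r → ℤ) →+ M)
    (A : I → Matrix (Fin r) (Fin r) ℤ) (b : I → Module.End ℤ M)
    (h : ∀ i c, ι (A i *ᵥ c) = b i (ι c)) (F : FreeAlgebra ℤ I) :
    ∀ c, ι (FreeAlgebra.lift ℤ A F *ᵥ c) = FreeAlgebra.lift ℤ b F (ι c) := by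
  induction F using FreeAlgebra.induction with
  | grade0 n =>
    intro c
    rw [AlgHom.commutes, AlgHom.commutes, Module.algebraMap_end_apply,
      Algebra.algebraMap_eq_smul_one, smul_mulVec, one_mulVec, map_zsmul]
  | grade1 i =>
    intro c
    rw [FreeAlgebra.lift_ι_apply, FreeAlgebra.lift_ι_apply, h]
  | mul x y hx hy =>
    intro c
    rw [map_mul, map_mul, ← mulVec_mulVec, hx, hy, Module.End.mul_apply]
  | add x y hx hy =>
    intro c
    rw [map_add, map_add, add_mulVec, map_add, hx, hy, LinearMap.add_apply]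

theorem exists_eq_nsmul_matrix (m : ℕ) (D : Matrix (Fin r) (Fin r) ℤ)
    (h : ∀ c, ∃ y : Fin r → ℤ, D *ᵥ c = m • y) : ∃ A' : Matrix (Fin r) (Fin r) ℤ, D = m • A' := by
  classical
  choose y hy using fun j : Fin r => h (Pi.single j 1)
  refine ⟨Matrix.of fun i j => y j i, ?_⟩
  ext i j
  have := congrFun (hy j) i
  rw [mulVec_single_one] at this
  simpa using this

/-- **Strong support property**: a noncommutative polynomial in the Hecke operators killing a
group `M` containing `Λ / m` is `m` times an integral matrix on the lattice. -/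
theorem strongSupp {I M : Type*} [AddCommGroup M] (ι : (Fin r → ℤ) →+ M) (m : ℕ)
    (hker : ∀ c, ι c = 0 → ∃ y : Fin r → ℤ, c = m • y)
    (A : I → Matrix (Fin r) (Fin r) ℤ) (b : I → Module.End ℤ M) (t : I → Module.End ℂ W)
    (hb : ∀ i c, ι (A i *ᵥ c) = b i (ι c)) (ht : ∀ i, (A i, t i) ∈ Rel P)
    (F : FreeAlgebra ℤ I) (hF : FreeAlgebra.lift ℤ b F = 0) :
    ∃ A' : Matrix (Fin r) (Fin r) ℤ, (m • A', FreeAlgebra.lift ℤ t F) ∈ Rel P := by
  obtain ⟨A', hA'⟩ := exists_eq_nsmul_matrix m (FreeAlgebra.lift ℤ A F) fun c =>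
    hker _ (by rw [lift_intertwine ι A b hb, hF, LinearMap.zero_apply])
  exact ⟨A', hA' ▸ lift_mem_Rel A t ht F⟩

end Fermat.Agent.ES.Glue
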