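/-
ES / Glue (G1): the characters `ψ_c = exp (2πi (Σ cᵢ λᵢ) / m)` of `Γ₀(N)`.
-/
import Fermat.Agent.ES.Coh.Coords
import Fermat.Agent.ES.An.Defs

set_option autoImplicit false
set_option linter.unusedSectionVars false

open CongruenceSubgroup Matrix.SpecialLinearGroup
open scoped MatrixGroups

namespace Fermat.Agent.ES.Glue

open Fermat.Agent.ES.Coh Fermat.Agent.ES.An Fermat.Agent.S16.Shimura

noncomputable section

/-- elements of `SL₂(ℤ)` of trace `0, ±1` have finite order. -/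
theorem pow_twelve_eq_one (M : Matrix (Fin 2) (Fin 2) ℤ) (hdet : M.det = 1)
    (h : |M.trace| ≤ 1) : M ^ 12 = 1 := by
  have hCH := mul_self_eq_trace_smul M hdet
  have h2 : M ^ 2 = M.trace • M - 1 := by rw [pow_two, hCH]
  have ht : M.trace = 0 ∨ M.trace = 1 ∨ M.trace = -1 := by
    rw [abs_le] at h
    omega
  rcases ht with ht | ht | ht
  · rw [ht, zero_smul, zero_sub] at h2
    calc M ^ 12 = (M ^ 2) ^ 6 := by rw [← pow_mul]
      _ = 1 := by rw [h2]; exact Even.neg_one_pow (by decide)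
  · rw [ht, one_smul] at h2
    have h3 : M ^ 3 = -1 := by
      rw [pow_succ, h2, sub_mul, one_mul, ← pow_two, h2]
      abel
    calc M ^ 12 = (M ^ 3) ^ 4 := by rw [← pow_mul]
      _ = 1 := by rw [h3]; exact Even.neg_one_pow (by decide)
  · rw [ht, neg_one_smul] at h2
    have h3 : M ^ 3 = 1 := by
      rw [pow_succ, h2, sub_mul, one_mul, neg_mul, ← pow_two, h2]
      abel
    calc M ^ 12 = (M ^ 3) ^ 4 := by rw [← pow_mul]
      _ = 1 := by rw [h3]; simp

theorem zpow_finset_sum {ι G : Type*} [CommGroup G] (s : Finset ι) (a : G) (f : ι → ℤ) :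
    a ^ (∑ i ∈ s, f i) = ∏ i ∈ s, a ^ f i := by
  classical
  induction s using Finset.induction_on with
  | empty => simp
  | insert i s hi ih => rw [Finset.sum_insert hi, Finset.prod_insert hi, zpow_add, ih]

/-- `exp (2πi / m)` as a unit. -/
def zetaU (m : ℕ) : ℂˣ := Units.mk0 (Complex.exp (2 * Real.pi * Complex.I / m)) (Complex.exp_ne_zero _)

theorem zetaU_isPrimitiveRoot {m : ℕ} (hm : m ≠ 0) : IsPrimitiveRoot (zetaU m) m := by
  rw [← IsPrimitiveRoot.coe_units_iff]
  exact Complex.isPrimitiveRoot_exp m hm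

variable (N : ℕ) [NeZero N] (m : ℕ)

/-- the character `γ ↦ exp (2πi φ(γ) / m)` attached to `φ : Γ₀(N) → ℤ`. -/
def expChar (φ : Additive (Gamma0 N) →+ ℤ) : Gamma0 N →* ℂˣ where
  toFun γ := zetaU m ^ φ (Additive.ofMul γ)
  map_one' := by rw [ofMul_one, map_zero, zpow_zero]
  map_mul' γ δ := by rw [ofMul_mul, map_add, zpow_add]

theorem expChar_apply (φ : Additive (Gamma0 N) →+ ℤ) (γ : Gamma0 N) :
    expChar N m φ γ = zetaU m ^ φ (Additive.ofMul γ) := rfl

theorem expChar_add (φ φ' : Additive (Gamma0 N) →+ ℤ) :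
    expChar N m (φ + φ') = expChar N m φ * expChar N m φ' := by
  ext γ
  rw [MonoidHom.mul_apply, expChar_apply, expChar_apply, expChar_apply, AddMonoidHom.add_apply,
    zpow_add]

variable {m}

theorem expChar_pow (hm : m ≠ 0) (φ : Additive (Gamma0 N) →+ ℤ) : expChar N m φ ^ m = 1 := by
  ext γ
  rw [MonoidHom.pow_apply, expChar_apply, MonoidHom.one_apply, ← zpow_natCast, ← zpow_mul,
    mul_comm, zpow_mul, zpow_natCast, (zetaU_isPrimitiveRoot hm).pow_eq_one, one_zpow]

theorem expChar_eq_one_iff (hm : m ≠ 0) (φ : Additive (Gamma0 N) →+ ℤ) :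
    expChar N m φ = 1 ↔ ∀ γ : Gamma0 N, (m : ℤ) ∣ φ (Additive.ofMul γ) := by
  constructor
  · intro h γ
    have := DFunLike.congr_fun h γ
    rw [expChar_apply, MonoidHom.one_apply] at this
    exact ((zetaU_isPrimitiveRoot hm).zpow_eq_one_iff_dvd _).mp this
  · intro h
    ext γ
    rw [expChar_apply, MonoidHom.one_apply,
      ((zetaU_isPrimitiveRoot hm).zpow_eq_one_iff_dvd _).mpr (h γ)]

theorem isGood_expChar (hm : m ≠ 0) {φ : Additive (Gamma0 N) →+ ℤ} (hφ : IsParEll N φ) :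
    IsGood (expChar N m φ) := by
  constructor
  · intro γ
    refine Complex.norm_eq_one_of_pow_eq_one (n := m) ?_ hm
    have := DFunLike.congr_fun (expChar_pow N hm φ) γ
    rw [MonoidHom.pow_apply, MonoidHom.one_apply] at this
    rw [← Units.val_pow_eq_pow_val, this, Units.val_one]
  · intro γ hγ
    have h0 : φ (Additive.ofMul γ) = 0 := by
      by_cases h1 : |((γ : SL(2, ℤ)) : Matrix (Fin 2) (Fin 2) ℤ).trace| ≤ 1
      · refine hφ.2 γ ?_
        apply Subtype.ext
        apply Subtype.ext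
        rw [Subgroup.coe_pow, Matrix.SpecialLinearGroup.coe_pow]
        exact pow_twelve_eq_one _ (γ : SL(2, ℤ)).det_coe h1
      · refine hφ.1 γ ?_
        have h2 : |((γ : SL(2, ℤ)) : Matrix (Fin 2) (Fin 2) ℤ).trace| = 2 := by omega
        rw [← sq_abs, h2]
        norm_num
    rw [expChar_apply, h0, zpow_zero]

/-- Hecke operators: the multiplicative transfer of `expChar φ` is `expChar (T_ℓ φ)`. -/
theorem expChar_heckeHom (ℓ : ℕ) [Fact ℓ.Prime] (hℓN : ¬ ℓ ∣ N) (φ : Additive (Gamma0 N) →+ ℤ)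
    (γ : Gamma0 N) :
    expChar N m (heckeHom N ℓ hℓN ℤ φ) γ
      = ∏ x : OnePoint (ZMod ℓ), expChar N m φ (corrT N ℓ hℓN γ x) := by
  rw [expChar_apply, heckeHom_apply]
  simp only [expChar_apply]
  exact zpow_finset_sum _ _ _

end

end Fermat.Agent.ES.Glue
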