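/-
ES / Glue (G2), (G3): the character of a Kummer class, finiteness of `Kum N m`, and the
Hecke equivariant map `Λ → Kum N m` with kernel `m Λ`.
-/
import Fermat.Agent.ES.An.Main
import Fermat.Agent.ES.B.Module
import Fermat.Agent.ES.Glue.Psi

set_option autoImplicit false
set_option linter.unusedSectionVars false

open CongruenceSubgroup Matrix.SpecialLinearGroup AlgebraicCurve ModularCurve
open scoped MatrixGroups

namespace Fermat.Agent.ES.Glue

open Fermat.Agent.ES Fermat.Agent.ES.Coh Fermat.Agent.ES.An Fermat.Agent.S16.Shimura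

noncomputable section

variable {N : ℕ} [NeZero N] {m : ℕ}

/-- the character of `f ∈ Dm N m`. -/
def chrD (hm : 0 < m) (f : Dm N m) : Gamma0 N →* ℂˣ :=
  (exists_hasChar m hm ((f : (FF N)ˣ) : FF N) (Units.ne_zero _) f.2).choose

theorem chrD_spec (hm : 0 < m) (f : Dm N m) :
    HasChar N m ((f : (FF N)ˣ) : FF N) (chrD hm f) :=
  (exists_hasChar m hm ((f : (FF N)ˣ) : FF N) (Units.ne_zero _) f.2).choose_spec.1

theorem chrD_pow (hm : 0 < m) (f : Dm N m) : chrD hm f ^ m = 1 :=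
  (exists_hasChar m hm ((f : (FF N)ˣ) : FF N) (Units.ne_zero _) f.2).choose_spec.2

theorem chrD_eq (hm : 0 < m) {f : Dm N m} {χ : Gamma0 N →* ℂˣ}
    (h : HasChar N m ((f : (FF N)ˣ) : FF N) χ) : chrD hm f = χ :=
  (chrD_spec hm f).unique hm h

theorem chrD_mul (hm : 0 < m) (f g : Dm N m) : chrD hm (f * g) = chrD hm f * chrD hm g :=
  chrD_eq hm ((chrD_spec hm f).mul (chrD_spec hm g))

/-- `chrD` as a homomorphism. -/
def chrDHom (hm : 0 < m) : Dm N m →* (Gamma0 N →* ℂˣ) :=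
  MonoidHom.mk' (chrD hm) (chrD_mul hm)

theorem chrD_eq_one_iff (hm : 0 < m) (f : Dm N m) : chrD hm f = 1 ↔ Kum.mk f = 0 := by
  rw [Kum.mk_eq_zero_iff]
  constructor
  · intro h
    have h1 := chrD_spec hm f
    rw [h, hasChar_one_iff hm (Units.ne_zero _)] at h1
    obtain ⟨h₀, hh⟩ := h1
    have h0 : h₀ ≠ 0 := by
      rintro rfl
      rw [zero_pow hm.ne'] at hh
      exact (Units.ne_zero _) hh
    exact ⟨Units.mk0 h₀ h0, Units.ext hh.symm⟩
  · rintro ⟨h₀, hh⟩
    apply chrD_eq hm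
    rw [hasChar_one_iff hm (Units.ne_zero _)]
    exact ⟨h₀, by rw [← hh]; rfl⟩

/-- the character of a Kummer class. -/
def chr (hm : 0 < m) : Kum N m →+ Additive (Gamma0 N →* ℂˣ) :=
  MonoidHom.toAdditive (QuotientGroup.lift _ (chrDHom hm) (by
    intro f hf
    have : Kum.mk f = 0 := (QuotientGroup.eq_one_iff f).mpr hf
    exact (chrD_eq_one_iff hm f).mpr this))

theorem chr_mk (hm : 0 < m) (f : Dm N m) : chr hm (Kum.mk f) = Additive.ofMul (chrD hm f) := rfl

theorem chr_injective (hm : 0 < m) : Function.Injective (chr (N := N) hm) := by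
  rw [injective_iff_map_eq_zero]
  intro x hx
  obtain ⟨f, rfl⟩ := Kum.mk_surjective x
  exact (chrD_eq_one_iff hm f).mp hx

/-- **(G3)** the Kummer group is finite. -/
theorem finite_Kum (hm : 0 < m) : Finite (Kum N m) := by
  have hfin := finite_chars (N := N) m hm
  have : Finite {χ : Gamma0 N →* ℂˣ | χ ^ m = 1} := hfin
  let Φ : Kum N m → {χ : Gamma0 N →* ℂˣ | χ ^ m = 1} := fun x => ⟨(chr hm x).toMul, by
    obtain ⟨f, rfl⟩ := Kum.mk_surjective x
    exact chrD_pow hm f⟩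
  refine Finite.of_injective Φ fun x y h => chr_injective hm ?_
  exact congrArg (fun z : {χ : Gamma0 N →* ℂˣ | χ ^ m = 1} => Additive.ofMul z.1) h

/-! ### the map from the lattice -/

theorem comb_add (c c' : Fin (rk N) → ℤ) : comb N ℤ (c + c') = comb N ℤ c + comb N ℤ c' := by
  refine AddMonoidHom.ext fun g => ?_
  simp [comb_apply, add_mul, Finset.sum_add_distrib]

theorem exists_rep (hm : 0 < m) (c : Fin (rk N) → ℤ) :
    ∃ f : Dm N m, chrD hm f = expChar N m (comb N ℤ c) := by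
  obtain ⟨f, hf0, hfD, hf⟩ := exists_of_isGood (expChar N m (comb N ℤ c))
    (isGood_expChar N hm.ne' (isParEll_comb N c)) m hm (expChar_pow N hm.ne' _)
  exact ⟨⟨Units.mk0 f hf0, hfD⟩, chrD_eq hm hf⟩

/-- a function with character `ψ_c`. -/
def rep (hm : 0 < m) (c : Fin (rk N) → ℤ) : Dm N m := (exists_rep hm c).choose

theorem chrD_rep (hm : 0 < m) (c : Fin (rk N) → ℤ) :
    chrD hm (rep hm c) = expChar N m (comb N ℤ c) := (exists_rep hm c).choose_spec

/-- **(G2)** the map `Λ → Kum N m`. -/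
def iota (hm : 0 < m) : (Fin (rk N) → ℤ) →+ Kum N m :=
  AddMonoidHom.mk' (fun c => Kum.mk (rep hm c)) (by
    intro c c'
    apply chr_injective hm
    rw [map_add, chr_mk, chr_mk, chr_mk, chrD_rep, chrD_rep, chrD_rep, comb_add, expChar_add]
    rfl)

theorem iota_apply (hm : 0 < m) (c : Fin (rk N) → ℤ) : iota hm c = Kum.mk (rep hm c) := rfl

theorem chr_iota (hm : 0 < m) (c : Fin (rk N) → ℤ) :
    chr hm (iota hm c) = Additive.ofMul (expChar N m (comb N ℤ c)) := by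
  rw [iota_apply, chr_mk, chrD_rep]

theorem iota_ker (hm : 0 < m) (c : Fin (rk N) → ℤ) (h : iota (N := N) hm c = 0) :
    ∃ y : Fin (rk N) → ℤ, c = m • y := by
  have h1 : expChar N m (comb N ℤ c) = 1 := by
    have := chr_iota hm c
    rw [h, map_zero] at this
    exact this.symm
  rw [expChar_eq_one_iff N hm.ne'] at h1
  have h2 : ∀ j, (m : ℤ) ∣ c j := fun j => by
    have := h1 (gam N j)
    rwa [comb_gam] at this
  choose y hy using h2
  exact ⟨y, funext fun j => by rw [hy j]; simp⟩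

theorem chr_heckeKum (hm : 0 < m) (ℓ : ℕ) [NeZero ℓ] [Fact ℓ.Prime] (hℓ : ℓ.Prime) (hℓN : ¬ ℓ ∣ N)
    (x : Kum N m) (χ' : Gamma0 N →* ℂˣ)
    (hχ' : ∀ γ, χ' γ = ∏ z : OnePoint (ZMod ℓ), (chr hm x).toMul (corrT N ℓ hℓN γ z)) :
    chr hm (heckeKum N ℓ hℓ hℓN m x) = Additive.ofMul χ' := by
  obtain ⟨f, rfl⟩ := Kum.mk_surjective x
  rw [heckeKum_mk, chr_mk]
  congr 1
  apply chrD_eq hm
  exact HasChar.hecke ℓ hℓN rfl (chrD_spec hm f) hχ'

theorem iota_hecke (hm : 0 < m) (ℓ : ℕ) [NeZero ℓ] [Fact ℓ.Prime] (hℓ : ℓ.Prime) (hℓN : ¬ ℓ ∣ N)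
    (c : Fin (rk N) → ℤ) :
    iota hm ((heckeMat N ℓ hℓN).transpose.mulVec c) = heckeKum N ℓ hℓ hℓN m (iota hm c) := by
  apply chr_injective hm
  rw [chr_heckeKum hm ℓ hℓ hℓN (iota hm c) (expChar N m (heckeHom N ℓ hℓN ℤ (comb N ℤ c)))
    (fun γ => by rw [expChar_heckeHom, chr_iota]; rfl), chr_iota, heckeHom_comb]
  congr 3
  funext j
  simp only [Matrix.mulVec, dotProduct, Matrix.transpose_apply, Int.cast_id]
  exact Finset.sum_congr rfl fun i _ => mul_comm _ _

end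

end Fermat.Agent.ES.Glue
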