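/-
ES / Glue (G4): the support property of `Kum N m` (interface of part (D)), in a strong form
(integral matrices on the lattice) and in the form `SuppProp`.
-/
import Fermat.Agent.ES.Coh.Eigen
import Fermat.Agent.ES.B.ToD
import Fermat.Agent.ES.Glue.Abstract
import Fermat.Agent.ES.Glue.Iota

set_option autoImplicit false
set_option linter.unusedSectionVars false

open CongruenceSubgroup Matrix.SpecialLinearGroup AlgebraicCurve ModularCurve
open scoped MatrixGroups

namespace Fermat.Agent.ES.Glue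

open Fermat.Agent.ES Fermat.Agent.ES.Coh Fermat.Agent.ES.An Fermat.Agent.S16.Shimura

noncomputable section

variable (N : ℕ) [NeZero N]

/-- the period vector as a linear map. -/
def perL : CuspForm (Gamma0 N) 2 →ₗ[ℂ] (Fin (rk N) → ℂ) where
  toFun f := perVec N f
  map_add' f g := by
    funext i
    simp [perVec]
  map_smul' a f := by
    funext i
    simp [perVec]

theorem perL_apply (f : CuspForm (Gamma0 N) 2) : perL N f = perVec N f := rfl

theorem perL_injective : Function.Injective (perL N) := by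
  rw [← LinearMap.ker_eq_bot, LinearMap.ker_eq_bot']
  intro f hf
  by_contra h
  exact perVec_ne_zero N h hf

/-- the integral matrix of `T_ℓ` acting on column vectors. -/
def matT (ℓ : D.GoodPrime N) : Matrix (Fin (rk N)) (Fin (rk N)) ℤ :=
  haveI : Fact ℓ.1.Prime := ⟨ℓ.2.1⟩
  (heckeMat N ℓ.1 ℓ.2.2).transpose

theorem matT_mem_Rel (ℓ : D.GoodPrime N) : (matT N ℓ, D.heckeS2 N ℓ) ∈ Rel (perL N) := by
  have : Fact ℓ.1.Prime := ⟨ℓ.2.1⟩
  intro f
  have h1 := heckeHom_comb N ℓ.1 ℓ.2.2 (perVec N f)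
  rw [comb_perVec, heckeHom_perC, ← comb_perVec] at h1
  have h2 := comb_injective N h1
  show perVec N (CuspForm.heckeTLin 2 ℓ.2.1 ℓ.2.2 f) = _
  rw [h2]
  funext j
  simp only [matT, perL_apply, Matrix.mulVec, dotProduct, RingHom.mapMatrix_apply, Matrix.map_apply,
    Matrix.transpose_apply, Int.coe_castRingHom]
  exact Finset.sum_congr rfl fun i _ => mul_comm _ _

variable {N} {m : ℕ}

theorem iota_matT (hm : 0 < m) (ℓ : D.GoodPrime N) (c : Fin (rk N) → ℤ) :
    iota hm ((matT N ℓ).mulVec c) = heckeT N m ℓ (iota hm c) := by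
  have : Fact ℓ.1.Prime := ⟨ℓ.2.1⟩
  have : NeZero ℓ.1 := ⟨ℓ.2.1.ne_zero⟩
  exact iota_hecke hm ℓ.1 ℓ.2.1 ℓ.2.2 c

/-- **Strong support property of `Kum N m`.** -/
theorem strongSupp_Kum (hm : 0 < m) (F : FreeAlgebra ℤ (D.GoodPrime N))
    (hF : FreeAlgebra.lift ℤ (heckeT N m) F = 0) :
    ∃ A' : Matrix (Fin (rk N)) (Fin (rk N)) ℤ,
      (m • A', FreeAlgebra.lift ℤ (D.heckeS2 N) F) ∈ Rel (perL N) :=
  strongSupp (iota hm) m (iota_ker hm) (matT N) (heckeT N m) (D.heckeS2 N) (iota_matT hm)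
    (matT_mem_Rel N) F hF

/-- **The support property of `Kum N m`** (interface of part (D)). -/
theorem suppProp (hm : 0 < m) : SuppProp N m := by
  intro F hF
  obtain ⟨A', hA'⟩ := strongSupp_Kum hm F hF
  exact Rel.isIntegral (perL_injective N) hm.ne' hA'

/-- `Kum N m` as an `ESModule`, given CRUX only. -/
def esModuleOfCrux (hm : 0 < m) (hcrux : ∀ ℓ : ℕ, ℓ.Prime → ¬ ℓ ∣ N * m → Crux N ℓ m) :
    D.ESModule N m :=
  esModule N m hm.ne' hcrux (finite_Kum hm) (suppProp hm)

end

end Fermat.Agent.ES.Glue
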