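/-
ES / Glue (K6), elliptic part: the character of a Kummer class kills the elements of `Γ₀(N)` having
a fixed point in `ℍ`, in particular all elements of trace `0, ±1` and `±1`.
-/
import Fermat.Agent.ES.An.Main

set_option autoImplicit false
set_option linter.unusedSectionVars false

open AlgebraicCurve ModularCurve UpperHalfPlane CongruenceSubgroup
open scoped MatrixGroups

namespace Fermat.Agent.ES.Glue

open Fermat.Agent.ES.An Fermat.Agent.S24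

/-- elements of `SL₂(ℤ)` of trace `0, ±1` have a fixed point in `ℍ`. -/
theorem exists_fixed_point (g : SL(2, ℤ))
    (h : |(g : Matrix (Fin 2) (Fin 2) ℤ).trace| ≤ 1) : ∃ τ₀ : ℍ, g • τ₀ = τ₀ := by
  set a := (g : Matrix (Fin 2) (Fin 2) ℤ) 0 0 with ha
  set b := (g : Matrix (Fin 2) (Fin 2) ℤ) 0 1 with hb
  set c := (g : Matrix (Fin 2) (Fin 2) ℤ) 1 0 with hc
  set d := (g : Matrix (Fin 2) (Fin 2) ℤ) 1 1 with hd
  have hdet : a * d - b * c = 1 := by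
    have := g.det_coe
    rw [Matrix.det_fin_two] at this
    exact this
  have htr : |a + d| ≤ 1 := by
    rw [Matrix.trace_fin_two] at h
    exact h
  have hc0 : c ≠ 0 := by
    intro h0
    rw [h0, mul_zero, sub_zero] at hdet
    rw [abs_le] at htr
    have h1 : a = 1 ∧ d = 1 ∨ a = -1 ∧ d = -1 := Int.mul_eq_one_iff_eq_one_or_neg_one.mp hdet
    omega
  have hD : (0 : ℝ) < 4 - ((a : ℝ) + d) ^ 2 := by
    have h1 : ((a : ℝ) + d) ^ 2 ≤ 1 := by
      have h2 : |(a : ℝ) + d| ≤ 1 := by exact_mod_cast htr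
      rw [← sq_abs]
      nlinarith [abs_nonneg ((a : ℝ) + d)]
    linarith
  set s : ℝ := Real.sqrt (4 - ((a : ℝ) + d) ^ 2) with hs
  have hs0 : 0 < s := Real.sqrt_pos.mpr hD
  have hs2 : s ^ 2 = 4 - ((a : ℝ) + d) ^ 2 := Real.sq_sqrt hD.le
  have hcR : (c : ℝ) ≠ 0 := by exact_mod_cast hc0
  have him : 0 < ((((a : ℝ) - d) / (2 * c) : ℝ) + (s / (2 * |(c : ℝ)|) : ℝ) * Complex.I : ℂ).im := by
    simp only [Complex.add_im, Complex.ofReal_im, Complex.mul_im, Complex.ofReal_re, Complex.I_im,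
      Complex.I_re, mul_one, mul_zero, add_zero, zero_add]
    positivity
  refine ⟨⟨_, him⟩, ?_⟩
  apply UpperHalfPlane.ext
  rw [coe_specialLinearGroup_apply]
  simp only [algebraMap_int_eq, Int.coe_castRingHom, ← ha, ← hb, ← hc, ← hd]
  set x : ℝ := ((a : ℝ) - d) / (2 * c) with hx
  set y : ℝ := s / (2 * |(c : ℝ)|) with hy
  have hy0 : 0 < y := by positivity
  have hx' : 2 * (c : ℝ) * x = a - d := by
    rw [hx]
    field_simp
  have hdetR : (a : ℝ) * d - b * c = 1 := by exact_mod_cast hdet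
  have hq : (c : ℝ) * (x ^ 2 + y ^ 2) = -b := by
    have h1 : y ^ 2 = s ^ 2 / (4 * (c : ℝ) ^ 2) := by
      rw [hy, div_pow, mul_pow, sq_abs]
      ring
    rw [h1, hs2, hx]
    field_simp
    linear_combination (-16 : ℝ) * hdetR
  have hxC : 2 * (c : ℂ) * x = a - d := by exact_mod_cast hx'
  have hqC : (c : ℂ) * ((x : ℂ) ^ 2 + (y : ℂ) ^ 2) = -b := by exact_mod_cast hq
  have hden : ((c : ℝ) : ℂ) * ((x : ℂ) + (y : ℂ) * Complex.I) + ((d : ℝ) : ℂ) ≠ 0 := by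
    intro h0
    have := congrArg Complex.im h0
    simp at this
    rcases this with h | h
    · exact hc0 h
    · exact hy0.ne' h
  rw [div_eq_iff hden]
  push_cast
  linear_combination (-(y : ℂ) * Complex.I - x) * hxC + hqC - ((c : ℂ) * y ^ 2) * Complex.I_sq

/-- an eigenfunction of an element fixing `τ₀` has eigenvalue `z ^ ord`. -/
theorem eq_zpow_of_cmp_fix (τ₀ : ℍ) (g : SL(2, ℤ)) (hg : g • τ₀ = τ₀) (u : Mer) (hu : u ≠ 0) (a : ℂ)
    (h : cmp (slp g) u = a • u) :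
    a = (denom ((g⁻¹ : SL(2, ℤ)) : GL (Fin 2) ℝ) τ₀ ^ 2) ^ (ordAt τ₀ u) := by
  have hg' : g⁻¹ • τ₀ = τ₀ := by
    conv_lhs => rw [← hg]
    rw [inv_smul_smul]
  have h1 := tay_cmp_fix τ₀ g⁻¹ hg' u (ordAt τ₀ u)
  rw [inv_inv, h, Algebra.smul_def, map_mul, AlgHom.commutes, ToMerAux.coeff_algebraMap_mul] at h1
  have h2 : (tay τ₀ u).coeff (ordAt τ₀ u) ≠ 0 := fun h0 =>
    tay_ne_zero τ₀ hu (HahnSeries.coeff_order_eq_zero.mp h0)
  exact mul_right_cancel₀ h2 h1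

variable {N : ℕ} [NeZero N] {K F : Type} [Field K] [Field F] [Algebra K F] [Algebra K ℂ]

/-- the character of an `m`-th root of a function with divisor divisible by `m` kills the
stabilisers of points of `ℍ`. -/
theorem char_fix (M : Model N K F) {m : ℕ} (hm : 0 < m) (f : F) (hf0 : f ≠ 0) (hf : DivBy K m f)
    (w : Mer) (hw : w ^ m = M.φ f) (χ : Gamma0 N →* ℂˣ) (hc : IsChar w χ) (γ : Gamma0 N) (τ₀ : ℍ)
    (hfix : (γ : SL(2, ℤ)) • τ₀ = τ₀) : χ γ = 1 := by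
  have hne : ∀ g : F, g ≠ 0 → M.φ g ≠ 0 := fun g hg => by
    rwa [Ne, map_eq_zero]
  have hw0 : w ≠ 0 := by
    rintro rfl
    rw [zero_pow hm.ne'] at hw
    exact hne f hf0 hw.symm
  set z : ℂ := denom (((γ : SL(2, ℤ))⁻¹ : SL(2, ℤ)) : GL (Fin 2) ℝ) τ₀ ^ 2 with hz
  have h1 : ((χ γ : ℂˣ) : ℂ) = z ^ ordAt τ₀ w := eq_zpow_of_cmp_fix τ₀ _ hfix w hw0 _ (hc γ)
  have h2 : ∀ g : F, g ≠ 0 → z ^ ordAt τ₀ (M.φ g) = 1 := fun g hg =>
    (eq_zpow_of_cmp_fix τ₀ _ hfix (M.φ g) (hne g hg) 1 (by rw [M.inv γ g, one_smul])).symm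
  have h3 : (m : ℤ) * ordAt τ₀ w = ordAt τ₀ (M.φ f) := by rw [← hw, ordAt_pow]
  have hm' : (m : ℤ) ≠ 0 := by exact_mod_cast hm.ne'
  apply Units.ext
  rw [h1, Units.val_one]
  by_cases hnt : ∃ g : F, g ≠ 0 ∧ ordAt τ₀ (M.φ g) ≠ 0
  · obtain ⟨v, c, -, hv⟩ := FF.exists_place_of_ordFun (K := K) (fun g : F => ordAt τ₀ (M.φ g))
      (fun g h hg hh => by
        show ordAt τ₀ (M.φ (g * h)) = _
        rw [map_mul, ordAt_mul τ₀ (hne g hg) (hne h hh)])
      (fun g h hg hh hgh => by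
        show _ ≤ ordAt τ₀ (M.φ (g + h))
        rw [map_add]
        apply min_ordAt_le_add
        rw [← map_add]
        exact hne _ hgh)
      (fun c _ => by
        show ordAt τ₀ (M.φ (algebraMap K F c)) = 0
        rw [M.φ_alg, ordAt_const])
      hnt
    obtain ⟨π, hπ⟩ := FF.exists_ord_eq_one v
    have hπ0 : π ≠ 0 := by
      rintro rfl
      simp at hπ
    have hzc : z ^ (c : ℤ) = 1 := by
      have := h2 π hπ0
      rwa [hv π hπ0, hπ, mul_one] at this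
    obtain ⟨k', hk'⟩ := hf v
    have h4 : ordAt τ₀ w = c * k' := by
      apply mul_left_cancel₀ hm'
      rw [h3, hv f hf0, hk']
      ring
    rw [h4, zpow_mul, hzc, one_zpow]
  · push Not at hnt
    have h4 : ordAt τ₀ w = 0 := by
      rw [hnt f hf0] at h3
      exact (mul_eq_zero.mp h3).resolve_left hm'
    rw [h4, zpow_zero]

/-- **(K6), elliptic part.** -/
theorem HasChar.fix {m : ℕ} (hm : 0 < m) {f : FN N} (hf0 : f ≠ 0) (hf : DivBy Kb m f)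
    {χ : Gamma0 N →* ℂˣ} (h : HasChar N m f χ) (γ : Gamma0 N) (τ₀ : ℍ)
    (hfix : (γ : SL(2, ℤ)) • τ₀ = τ₀) : χ γ = 1 := by
  obtain ⟨w, -, hw, hc⟩ := h
  exact char_fix (modelB N) hm f hf0 hf w hw χ hc γ τ₀ hfix

theorem HasChar.ell {m : ℕ} (hm : 0 < m) {f : FN N} (hf0 : f ≠ 0) (hf : DivBy Kb m f)
    {χ : Gamma0 N →* ℂˣ} (h : HasChar N m f χ) (γ : Gamma0 N)
    (hγ : |((γ : SL(2, ℤ)) : Matrix (Fin 2) (Fin 2) ℤ).trace| ≤ 1) : χ γ = 1 := by
  obtain ⟨τ₀, hτ₀⟩ := exists_fixed_point (γ : SL(2, ℤ)) hγ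
  exact HasChar.fix hm hf0 hf h γ τ₀ hτ₀

end Fermat.Agent.ES.Glue
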