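/-
ES / Glue: (K6) assembled, surjectivity of `iota : Λ → Kum N m`, `|Kum N m| = m ^ (2 g)`, cosupport.
-/
import Fermat.Agent.ES.Glue.Supp
import Fermat.Agent.ES.Glue.GoodEll
import Fermat.Agent.ES.An.GoodPar
import Fermat.Agent.ES.Coh.Rank

set_option autoImplicit false
set_option linter.unusedSectionVars false

open CongruenceSubgroup Matrix.SpecialLinearGroup AlgebraicCurve ModularCurve
open scoped MatrixGroups

namespace Fermat.Agent.ES.Glue

open Fermat.Agent.ES Fermat.Agent.ES.Coh Fermat.Agent.ES.An Fermat.Agent.S16.Shimura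

noncomputable section

/-! ### elements of finite order have small trace -/

theorem trace_sq_eq (M : Matrix (Fin 2) (Fin 2) ℤ) (hdet : M.det = 1) :
    (M ^ 2).trace = M.trace ^ 2 - 2 := by
  rw [Matrix.det_fin_two] at hdet
  rw [pow_two, Matrix.trace_fin_two, Matrix.trace_fin_two, Matrix.mul_apply, Matrix.mul_apply,
    Fin.sum_univ_two, Fin.sum_univ_two]
  linear_combination (-2 : ℤ) * hdet

theorem abs_trace_le_two_of_pow_twelve (M : Matrix (Fin 2) (Fin 2) ℤ) (hdet : M.det = 1)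
    (h : M ^ 12 = 1) : |M.trace| ≤ 2 := by
  by_contra hlt
  rw [not_le] at hlt
  have h9 : 9 ≤ M.trace ^ 2 := by
    have : 3 ≤ |M.trace| := hlt
    rw [← sq_abs]
    nlinarith
  have hd : ∀ k : ℕ, (M ^ k).det = 1 := fun k => by rw [Matrix.det_pow, hdet, one_pow]
  have e2 := trace_sq_eq M hdet
  have e4 := trace_sq_eq (M ^ 2) (hd 2)
  have e8 := trace_sq_eq (M ^ 4) (hd 4)
  have e16 := trace_sq_eq (M ^ 8) (hd 8)
  rw [← pow_mul] at e4 e8 e16
  norm_num at e4 e8 e16
  have h16 : M ^ 16 = M ^ 4 := by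
    rw [show 16 = 12 + 4 from rfl, pow_add, h, one_mul]
  rw [h16] at e16
  set a := (M ^ 4).trace
  set b := (M ^ 8).trace
  have ha : 47 ≤ a := by rw [e4, e2]; nlinarith
  have hb : a < b := by rw [e8]; nlinarith
  nlinarith

variable {N : ℕ} [NeZero N] {m : ℕ}

/-! ### (K6) -/

/-- **(K6)** the character of a Kummer class is good. -/
theorem isGood_chrD (hm : 0 < m) (f : Dm N m) : IsGood (chrD hm f) := by
  constructor
  · intro γ
    refine Complex.norm_eq_one_of_pow_eq_one (n := m) ?_ hm.ne'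
    have := DFunLike.congr_fun (chrD_pow hm f) γ
    rw [MonoidHom.pow_apply, MonoidHom.one_apply] at this
    rw [← Units.val_pow_eq_pow_val, this, Units.val_one]
  · intro γ hγ
    by_cases h1 : |((γ : SL(2, ℤ)) : Matrix (Fin 2) (Fin 2) ℤ).trace| ≤ 1
    · exact HasChar.ell hm (Units.ne_zero _) f.2 (chrD_spec hm f) γ h1
    · refine An.HasChar.par hm (Units.ne_zero _) f.2 (chrD_spec hm f) γ ?_
      have h2 : |((γ : SL(2, ℤ)) : Matrix (Fin 2) (Fin 2) ℤ).trace| = 2 := by omega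
      rw [← sq_abs, h2]
      norm_num

/-! ### discrete logarithm of a character of exponent `m` -/

theorem mem_zpowers_zetaU (hm : 0 < m) {χ : Gamma0 N →* ℂˣ} (hχ : χ ^ m = 1) (γ : Gamma0 N) :
    χ γ ∈ Subgroup.zpowers (Glue.zetaU m) := by
  have : NeZero m := ⟨hm.ne'⟩
  rw [(zetaU_isPrimitiveRoot hm.ne').zpowers_eq, mem_rootsOfUnity]
  have := DFunLike.congr_fun hχ γ
  rwa [MonoidHom.pow_apply, MonoidHom.one_apply] at this

/-- the logarithm of a character of exponent `m`. -/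
def logChar (hm : 0 < m) (χ : Gamma0 N →* ℂˣ) (hχ : χ ^ m = 1) : Additive (Gamma0 N) →+ ZMod m :=
  ((zetaU_isPrimitiveRoot hm.ne').zmodEquivZPowers.symm.toAddMonoidHom).comp
    (MonoidHom.toAdditive (χ.codRestrict (Subgroup.zpowers (Glue.zetaU m))
      (mem_zpowers_zetaU hm hχ)))

theorem logChar_spec (hm : 0 < m) (χ : Gamma0 N →* ℂˣ) (hχ : χ ^ m = 1) (γ : Gamma0 N) (a : ℤ)
    (h : logChar hm χ hχ (Additive.ofMul γ) = (a : ZMod m)) : χ γ = Glue.zetaU m ^ a := by
  have h1 : (zetaU_isPrimitiveRoot hm.ne').zmodEquivZPowers (logChar hm χ hχ (Additive.ofMul γ))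
      = Additive.ofMul (⟨χ γ, mem_zpowers_zetaU hm hχ γ⟩ : Subgroup.zpowers (Glue.zetaU m)) :=
    AddEquiv.apply_symm_apply _ _
  rw [h, IsPrimitiveRoot.zmodEquivZPowers_apply_coe_int] at h1
  exact (congrArg (fun z : Additive (Subgroup.zpowers (Glue.zetaU m)) => (z.toMul : ℂˣ)) h1).symm

theorem logChar_eq_zero (hm : 0 < m) (χ : Gamma0 N →* ℂˣ) (hχ : χ ^ m = 1) (γ : Gamma0 N)
    (h : χ γ = 1) : logChar hm χ hχ (Additive.ofMul γ) = 0 := by
  have h1 : (MonoidHom.toAdditive (χ.codRestrict (Subgroup.zpowers (Glue.zetaU m))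
      (mem_zpowers_zetaU hm hχ))) (Additive.ofMul γ) = 0 := by
    apply congrArg Additive.ofMul
    exact Subtype.ext h
  show (zetaU_isPrimitiveRoot hm.ne').zmodEquivZPowers.symm _ = 0
  rw [h1, map_zero]

theorem isParEll_logChar (hm : 0 < m) (χ : Gamma0 N →* ℂˣ) (hχ : χ ^ m = 1) (hg : IsGood χ) :
    IsParEll N (logChar hm χ hχ) := by
  constructor
  · intro γ hγ
    refine logChar_eq_zero hm χ hχ γ (hg.2 γ ?_)
    exact abs_le.mpr ⟨by nlinarith, by nlinarith⟩
  · intro γ hγ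
    refine logChar_eq_zero hm χ hχ γ (hg.2 γ ?_)
    apply abs_trace_le_two_of_pow_twelve _ (γ : SL(2, ℤ)).det_coe
    have := congrArg (fun z : Gamma0 N => ((z : SL(2, ℤ)) : Matrix (Fin 2) (Fin 2) ℤ)) hγ
    simpa using this

/-- a good character of exponent `m` is `expChar` of an integral par-ell character. -/
theorem exists_eq_expChar (hm : 0 < m) (χ : Gamma0 N →* ℂˣ) (hχ : χ ^ m = 1) (hg : IsGood χ) :
    ∃ c : Fin (rk N) → ℤ, χ = expChar N m (comb N ℤ c) := by
  have : NeZero m := ⟨hm.ne'⟩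
  obtain ⟨c, hc⟩ := exists_lift_zmod N m _ (isParEll_logChar hm χ hχ hg)
  refine ⟨c, MonoidHom.ext fun γ => ?_⟩
  rw [expChar_apply]
  exact logChar_spec hm χ hχ γ _ (hc _)

/-! ### surjectivity -/

/-- **`Λ → Kum N m` is surjective**: `Kum N m ≅ Λ / m`. -/
theorem iota_surjective (hm : 0 < m) : Function.Surjective (iota (N := N) hm) := by
  intro x
  obtain ⟨f, rfl⟩ := Kum.mk_surjective x
  obtain ⟨c, hc⟩ := exists_eq_expChar hm (chrD hm f) (chrD_pow hm f) (isGood_chrD hm f)
  refine ⟨c, chr_injective hm ?_⟩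
  rw [chr_iota, chr_mk, hc]

/-- **cosupport**: a polynomial in the Hecke operators killing `S₂(Γ₀(N))` kills `Kum N m`. -/
theorem cosupp_Kum (hm : 0 < m) (P : FreeAlgebra ℤ (D.GoodPrime N))
    (hP : FreeAlgebra.lift ℤ (D.heckeS2 N) P = 0) : FreeAlgebra.lift ℤ (heckeT N m) P = 0 := by
  have h0 : FreeAlgebra.lift ℤ (matT N) P = 0 := matRep_eq_zero N P hP
  refine LinearMap.ext fun x => ?_
  obtain ⟨c, rfl⟩ := iota_surjective hm x
  rw [← lift_intertwine (iota hm) (matT N) (heckeT N m) (iota_matT hm) P c, h0, Matrix.zero_mulVec,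
    map_zero, LinearMap.zero_apply]

/-- `|Kum N m| = m ^ (2 g)`. -/
theorem card_Kum (hm : 0 < m) : Nat.card (Kum N m) = m ^ rk N := by
  have : NeZero m := ⟨hm.ne'⟩
  let g : (Fin (rk N) → ZMod m) → Kum N m := fun c => iota hm fun i => ((c i).val : ℤ)
  have hker : ∀ y : Fin (rk N) → ℤ, iota (N := N) hm (m • y) = 0 := fun y => by
    rw [map_nsmul, Kum.nsmul_eq_zero]
  have hg : Function.Bijective g := by
    constructor
    · intro c c' h
      have h1 : iota (N := N) hm ((fun i => ((c i).val : ℤ)) - fun i => ((c' i).val : ℤ)) = 0 := by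
        rw [map_sub, sub_eq_zero]; exact h
      obtain ⟨y, hy⟩ := iota_ker hm _ h1
      funext i
      have h2 := congrArg (fun z : ℤ => (z : ZMod m)) (congrFun hy i)
      simp only [Pi.sub_apply, Pi.smul_apply, Int.cast_sub, Int.cast_natCast, ZMod.natCast_zmod_val,
        nsmul_eq_mul, Int.cast_mul, ZMod.natCast_self, zero_mul] at h2
      exact sub_eq_zero.mp h2
    · intro x
      obtain ⟨c, rfl⟩ := iota_surjective hm x
      refine ⟨fun i => (c i : ZMod m), ?_⟩
      have h1 : ∀ i, (m : ℤ) ∣ ((((c i : ℤ) : ZMod m).val : ℤ) - c i) := fun i => by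
        rw [← ZMod.intCast_zmod_eq_zero_iff_dvd]
        simp
      choose y hy using h1
      have h2 : (fun i => ((((c i : ℤ) : ZMod m).val : ℤ))) = c + m • y := by
        funext i
        have := hy i
        show _ = c i + m • y i
        rw [nsmul_eq_mul]
        linarith
      show iota hm (fun i => ((((c i : ℤ) : ZMod m).val : ℤ))) = iota hm c
      rw [h2, map_add, hker, add_zero]
  rw [← Nat.card_congr (Equiv.ofBijective g hg), Nat.card_fun, Nat.card_zmod,
    Nat.card_eq_fintype_card, Fintype.card_fin]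

end

end Fermat.Agent.ES.Glue
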